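/-
S55 / 47f-SHA-TRANSPORT (helper84), file 1: the conjugation half of Mackey's formula for Shapiro's
lemma in level cohomology, by hand on cochains.

Setting (ShapiroLevel32 part (A) + Profin15): `𝒰 : LevelStr G`, `π : G →* Γ` whose kernel contains
a level, `A : Rep k G` with coordinates `co : CoindCoord π A` (so `A = Fun(Γ, k)`, the module
coinduced from the trivial module of `π.ker`), and a level-continuous `r : H →* G`
(`H` = a local Galois group).  For `t : G` the conjugated embedding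
`conjKer π r t : (π ∘ r).ker →* π.ker`, `n ↦ t * r n * t⁻¹`, is level-continuous, and

* (M2) `trivRes₂_conjKer_shH2_eq_zero` : if `res₂ x = 0` in `H²(𝒱; res A)` then the pull-back of the
  Shapiro image of `x` along `conjKer π r t` vanishes in `H²((π ∘ r).ker; k)`;
* (M1) `res₁_eq_zero_of_trivRes₁` : if the pull-backs of the Shapiro image of `x : H¹(𝒰; A)` along
  `conjKer π r (t i)` vanish for a family `t i` whose images cover the `π (r H)`-orbits of `Γ`,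
  then `res₁ x = 0` in `H¹(𝒱; res A)`.

These are the only two facts needed to compare `Sha₁/Sha₂` of a coinduced module with the
Tate–Shafarevich groups of the open subgroup `π.ker` with trivial coefficients.
-/
import Fermat.Agent.S55.ShapiroLevel32.Equiv
import Fermat.Agent.S55.Profin15.Restriction

set_option autoImplicit false

universe u

open CategoryTheory groupCohomology

namespace Fermat.Agent.S55.ShaTransport84

open Fermat.Agent.S55.Profin15 Fermat.Agent.S55.ShapiroLevel32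

variable {k G Γ H : Type u} [CommRing k] [Group G] [Group Γ] [Group H]

/-! ### The conjugated embedding of kernels -/

/-- `n ↦ t * r n * t⁻¹`, from the kernel of `π ∘ r` to the kernel of `π`. -/
def conjKer (π : G →* Γ) (r : H →* G) (t : G) : (π.comp r).ker →* π.ker where
  toFun n := ⟨t * r n * t⁻¹, by
    have hn : π (r (n : H)) = 1 := n.2
    rw [MonoidHom.mem_ker, map_mul, map_mul, map_inv, hn, mul_one, mul_inv_cancel]⟩
  map_one' := by
    apply Subtype.ext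
    simp
  map_mul' a b := by
    apply Subtype.ext
    simp only [Subgroup.coe_mul, map_mul]
    group

@[simp] lemma coe_conjKer (π : G →* Γ) (r : H →* G) (t : G) (n : (π.comp r).ker) :
    ((conjKer π r t n : π.ker) : G) = t * r (n : H) * t⁻¹ := rfl

section Levels

variable {𝒰 : LevelStr G} {𝒱 : LevelStr H} {r : H →* G} {π : G →* Γ}

/-- the kernel of `π ∘ r` contains a level of `𝒱`. -/
lemma hker_comp (hr : LevelStr.IsContinuous 𝒱 𝒰 r) (hker : ∃ V ∈ 𝒰.levels, V ≤ π.ker) :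
    ∃ V ∈ 𝒱.levels, V ≤ (π.comp r).ker := by
  obtain ⟨V, hV, hle⟩ := hker
  obtain ⟨W, hW, hWle⟩ := hr V hV
  refine ⟨W, hW, fun w hw => ?_⟩
  rw [MonoidHom.mem_ker, MonoidHom.comp_apply]
  exact hle (hWle hw)

/-- `conjKer` is level-continuous for the induced level structures on the kernels. -/
lemma conjKer_isContinuous (hr : LevelStr.IsContinuous 𝒱 𝒰 r)
    (hker : ∃ V ∈ 𝒰.levels, V ≤ π.ker) (t : G) :
    LevelStr.IsContinuous (kerLevels 𝒱 (hker_comp hr hker)) (kerLevels 𝒰 hker)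
      (conjKer π r t) := by
  rintro W' ⟨W, hW, hle, rfl⟩
  have := 𝒰.normal W hW
  obtain ⟨V, hV, hVle⟩ := hr W hW
  have hVker : V ≤ (π.comp r).ker := by
    intro v hv
    rw [MonoidHom.mem_ker, MonoidHom.comp_apply]
    exact hle (hVle hv)
  refine ⟨V.subgroupOf (π.comp r).ker, ⟨V, hV, hVker, rfl⟩, fun n hn => ?_⟩
  rw [Subgroup.mem_comap, Subgroup.mem_subgroupOf, coe_conjKer]
  have h1 : r (n : H) ∈ W := hVle (Subgroup.mem_subgroupOf.1 hn)
  exact Subgroup.Normal.conj_mem ‹_› _ h1 t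

end Levels

/-! ### Pull-back of trivial-coefficient classes -/

section TrivRes

variable {H₁ H₂ : Type u} [Group H₁] [Group H₂]

/-- pull-back of `1`-cochains with values in the trivial module `k`. -/
def tpull₁ (k : Type u) [CommRing k] (φ : H₂ →* H₁) :
    (H₁ → triv k H₁) →ₗ[k] (H₂ → triv k H₂) where
  toFun x n := x (φ n)
  map_add' _ _ := rfl
  map_smul' _ _ := rfl

/-- pull-back of `2`-cochains with values in the trivial module `k`. -/
def tpull₂ (k : Type u) [CommRing k] (φ : H₂ →* H₁) :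
    (H₁ × H₁ → triv k H₁) →ₗ[k] (H₂ × H₂ → triv k H₂) where
  toFun x n := x (φ n.1, φ n.2)
  map_add' _ _ := rfl
  map_smul' _ _ := rfl

@[simp] lemma tpull₁_apply (φ : H₂ →* H₁) (x : H₁ → triv k H₁) (n : H₂) :
    tpull₁ k φ x n = x (φ n) := rfl

@[simp] lemma tpull₂_apply (φ : H₂ →* H₁) (x : H₁ × H₁ → triv k H₁) (n n' : H₂) :
    tpull₂ k φ x (n, n') = x (φ n, φ n') := rfl

lemma tpull₁_mem_cocycles₁ (φ : H₂ →* H₁) {x : H₁ → triv k H₁}
    (hx : x ∈ cocycles₁ (triv k H₁)) : tpull₁ k φ x ∈ cocycles₁ (triv k H₂) := by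
  have h := (mem_cocycles₁_triv (k := k) (H := H₁) x).1 hx
  refine (mem_cocycles₁_triv (k := k) (H := H₂) _).2 fun u v => ?_
  rw [tpull₁_apply, tpull₁_apply, tpull₁_apply, map_mul]
  exact h _ _

lemma tpull₂_mem_cocycles₂ (φ : H₂ →* H₁) {x : H₁ × H₁ → triv k H₁}
    (hx : x ∈ cocycles₂ (triv k H₁)) : tpull₂ k φ x ∈ cocycles₂ (triv k H₂) := by
  have h := (mem_cocycles₂_triv (k := k) (H := H₁) x).1 hx
  refine (mem_cocycles₂_triv (k := k) (H := H₂) _).2 fun u v w => ?_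
  rw [tpull₂_apply, tpull₂_apply, tpull₂_apply, tpull₂_apply, map_mul, map_mul]
  exact h _ _ _

lemma tpull₂_d₁₂ (φ : H₂ →* H₁) (y : H₁ → triv k H₁) :
    tpull₂ k φ ((d₁₂ (triv k H₁)).hom y) = (d₁₂ (triv k H₂)).hom (tpull₁ k φ y) := by
  ext ⟨u, v⟩
  rw [tpull₂_apply, d₁₂_triv, d₁₂_triv, tpull₁_apply, tpull₁_apply, tpull₁_apply, map_mul]

/-- a `1`-coboundary with trivial coefficients is zero -/
lemma eq_zero_of_mem_coboundaries₁_triv {x : H₁ → triv k H₁}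
    (hx : x ∈ coboundaries₁ (triv k H₁)) : x = 0 := by
  obtain ⟨a, rfl⟩ := hx
  funext u
  exact d₀₁_triv a u

variable {𝒰' : LevelStr H₁} {𝒱' : LevelStr H₂} {φ : H₂ →* H₁}
  (hφ : LevelStr.IsContinuous 𝒱' 𝒰' φ)

include hφ in
lemma tpull₁_mem_Z₁ {x : H₁ → triv k H₁} (hx : x ∈ 𝒰'.Z₁ (triv k H₁)) :
    tpull₁ k φ x ∈ 𝒱'.Z₁ (triv k H₂) :=
  ⟨tpull₁_mem_cocycles₁ φ hx.1, hφ.isConst₁ hx.2⟩

include hφ in
lemma tpull₂_mem_Z₂ {x : H₁ × H₁ → triv k H₁} (hx : x ∈ 𝒰'.Z₂ (triv k H₁)) :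
    tpull₂ k φ x ∈ 𝒱'.Z₂ (triv k H₂) :=
  ⟨tpull₂_mem_cocycles₂ φ hx.1, hφ.isConst₂ hx.2⟩

include hφ in
lemma tpull₂_mem_B₂ {x : H₁ × H₁ → triv k H₁} (hx : x ∈ 𝒰'.B₂ (triv k H₁)) :
    tpull₂ k φ x ∈ 𝒱'.B₂ (triv k H₂) := by
  obtain ⟨y, hy, rfl⟩ := (𝒰'.mem_B₂_iff _ x).1 hx
  exact (𝒱'.mem_B₂_iff _ _).2 ⟨tpull₁ k φ y, hφ.isConst₁ hy, (tpull₂_d₁₂ φ y).symm⟩

/-- pull-back on level `1`-cocycles with trivial coefficients -/
def tresZ₁ : ↥(𝒰'.Z₁ (triv k H₁)) →ₗ[k] ↥(𝒱'.Z₁ (triv k H₂)) :=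
  (tpull₁ k φ).restrict fun _ hx => tpull₁_mem_Z₁ hφ hx

/-- pull-back on level `2`-cocycles with trivial coefficients -/
def tresZ₂ : ↥(𝒰'.Z₂ (triv k H₁)) →ₗ[k] ↥(𝒱'.Z₂ (triv k H₂)) :=
  (tpull₂ k φ).restrict fun _ hx => tpull₂_mem_Z₂ hφ hx

@[simp] lemma coe_tresZ₁ (x : ↥(𝒰'.Z₁ (triv k H₁))) :
    ((tresZ₁ hφ x : ↥(𝒱'.Z₁ (triv k H₂))) : H₂ → triv k H₂) =
      tpull₁ k φ (x : H₁ → triv k H₁) := rfl

@[simp] lemma coe_tresZ₂ (x : ↥(𝒰'.Z₂ (triv k H₁))) :
    ((tresZ₂ hφ x : ↥(𝒱'.Z₂ (triv k H₂))) : H₂ × H₂ → triv k H₂) =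
      tpull₂ k φ (x : H₁ × H₁ → triv k H₁) := rfl

/-- **pull-back** `H¹(𝒰'; k) → H¹(𝒱'; k)` along a level-continuous `φ`. -/
def trivRes₁ : 𝒰'.H1 (triv k H₁) →ₗ[k] 𝒱'.H1 (triv k H₂) :=
  Submodule.mapQ _ _ (tresZ₁ hφ) (by
    rintro x hx
    rw [Submodule.mem_comap] at hx ⊢
    have h0 : (x : H₁ → triv k H₁) = 0 := eq_zero_of_mem_coboundaries₁_triv hx
    change tpull₁ k φ (x : H₁ → triv k H₁) ∈ coboundaries₁ (triv k H₂)
    rw [h0, map_zero]
    exact Submodule.zero_mem _)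

/-- **pull-back** `H²(𝒰'; k) → H²(𝒱'; k)` along a level-continuous `φ`. -/
def trivRes₂ : 𝒰'.H2 (triv k H₁) →ₗ[k] 𝒱'.H2 (triv k H₂) :=
  Submodule.mapQ _ _ (tresZ₂ hφ) (by
    rintro x hx
    rw [Submodule.mem_comap] at hx ⊢
    exact tpull₂_mem_B₂ hφ hx)

@[simp] lemma trivRes₁_mk (x : ↥(𝒰'.Z₁ (triv k H₁))) :
    trivRes₁ (k := k) hφ (𝒰'.H1π _ x) = 𝒱'.H1π _ (tresZ₁ hφ x) := rfl

@[simp] lemma trivRes₂_mk (x : ↥(𝒰'.Z₂ (triv k H₁))) :
    trivRes₂ (k := k) hφ (𝒰'.H2π _ x) = 𝒱'.H2π _ (tresZ₂ hφ x) := rfl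

end TrivRes

/-! ### Level-constancy on kernels -/

section KerConst

variable (𝒱 : LevelStr H) {K : Subgroup H} (hK : ∃ V ∈ 𝒱.levels, V ≤ K)

include hK in
/-- a level-constant function restricted to a subgroup containing a level is level-constant
for the restricted level structure -/
lemma isConst₁_restrict {X : Type*} {b : H → X} (hb : 𝒱.IsConst₁ b) :
    (restrictLevels 𝒱 K hK).IsConst₁ (fun n : K => b (n : H)) := by
  obtain ⟨V, hV, hVle⟩ := hK
  obtain ⟨W, hW, hle, h⟩ := hb.exists_le hV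
  refine ⟨W.subgroupOf K, ⟨W, hW, hle.trans hVle, rfl⟩, fun u s hs => ?_⟩
  have hs' : (s : H) ∈ W := Subgroup.mem_subgroupOf.1 hs
  simp only [Subgroup.coe_mul, h (u : H) (s : H) hs']

end KerConst

/-! ### (M2): vanishing of the conjugated restrictions in degree 2 -/

section M2

variable {𝒰 : LevelStr G} {𝒱 : LevelStr H} {r : H →* G} {π : G →* Γ} {A : Rep k G}

/-- the correction cochain of the conjugation by `t`, in coordinates at `1`. -/
def conjCorr (co : CoindCoord π A) (r : H →* G) (t : G) (f : G × G → A) :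
    (π.comp r).ker → k :=
  fun n => co.c (f (t, r (n : H))) 1 - co.c (f (t * r (n : H) * t⁻¹, t)) 1

lemma isConst₁_conjCorr (hr : LevelStr.IsContinuous 𝒱 𝒰 r)
    (hker : ∃ V ∈ 𝒰.levels, V ≤ π.ker) (co : CoindCoord π A) (t : G) {f : G × G → A}
    (hf : 𝒰.IsConst₂ f) :
    (kerLevels 𝒱 (hker_comp hr hker)).IsConst₁ (conjCorr co r t f) := by
  obtain ⟨W, hW, h⟩ := hf
  have := 𝒰.normal W hW
  obtain ⟨V0, hV0, hV0le⟩ := hker_comp (π := π) hr hker
  obtain ⟨V1, hV1, hV1le⟩ := hr W hW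
  obtain ⟨V, hV, hVle⟩ := 𝒱.directed V0 hV0 V1 hV1
  refine ⟨V.subgroupOf (π.comp r).ker, ⟨V, hV, (hVle.trans inf_le_left).trans hV0le, rfl⟩,
    fun n s hs => ?_⟩
  have hs' : (s : H) ∈ V := Subgroup.mem_subgroupOf.1 hs
  have hrs : r (s : H) ∈ W := hV1le ((hVle hs').2)
  have hconj : t * r (s : H) * t⁻¹ ∈ W := Subgroup.Normal.conj_mem ‹_› _ hrs t
  have e1 := h t (r (n : H)) 1 (r (s : H)) (one_mem _) hrs
  have e2 := h (t * r (n : H) * t⁻¹) t (t * r (s : H) * t⁻¹) 1 hconj (one_mem _)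
  rw [mul_one] at e1 e2
  have e3 : t * r (n : H) * t⁻¹ * (t * r (s : H) * t⁻¹) = t * (r (n : H) * r (s : H)) * t⁻¹ := by
    group
  rw [e3] at e2
  simp only [conjCorr, Subgroup.coe_mul, map_mul, e1, e2]

/-- **(M2)** If `x : H²(𝒰; A)` restricts to `0` in `H²(𝒱; res A)`, then the pull-back of its
Shapiro image along every conjugated embedding `conjKer π r t` vanishes. -/
theorem trivRes₂_conjKer_shH2_eq_zero (hr : LevelStr.IsContinuous 𝒱 𝒰 r)
    (hker : ∃ V ∈ 𝒰.levels, V ≤ π.ker) (co : CoindCoord π A) (x : 𝒰.H2 A)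
    (hx : hr.res₂ A x = 0) (t : G) :
    trivRes₂ (k := k) (conjKer_isContinuous hr hker t) (shH2 𝒰 hker co x) = 0 := by
  obtain ⟨f, rfl⟩ := Submodule.mkQ_surjective _ x
  -- the restriction is a level coboundary
  have hx' : 𝒱.H2π _ (hr.resZ₂ A f) = 0 := hx
  rw [LevelStr.H2π_eq_zero_iff, LevelStr.IsContinuous.coe_resZ₂, LevelStr.mem_B₂_iff] at hx'
  obtain ⟨b, hb, hbf⟩ := hx'
  -- goal: the conjugated restriction of `sh₂ f` is a level coboundary
  change (kerLevels 𝒱 (hker_comp hr hker)).H2π _ (tresZ₂ (conjKer_isContinuous hr hker t)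
    (shZ₂ 𝒰 hker co f)) = 0
  rw [LevelStr.H2π_eq_zero_iff, coe_tresZ₂, coe_shZ₂, LevelStr.mem_B₂_iff]
  refine ⟨fun n => co.c (b (n : H)) (π t) - conjCorr co r t (f : G × G → A) n, ?_, ?_⟩
  · -- level-constancy
    have h1 : (kerLevels 𝒱 (hker_comp hr hker)).IsConst₁
        (fun n : (π.comp r).ker => co.c (b (n : H)) (π t)) :=
      (isConst₁_restrict 𝒱 (hker_comp hr hker) hb).comp (fun a => co.c a (π t))
    have h2 := isConst₁_conjCorr hr hker co t f.2.2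
    obtain ⟨U1, hU1, e1⟩ := h1
    obtain ⟨U2, hU2, hle, e2⟩ := h2.exists_le hU1
    exact ⟨U2, hU2, fun g s hs => by simp only [e1 g s (hle hs), e2 g s hs]⟩
  · -- the coboundary identity
    funext ⟨n, n'⟩
    have hn : π (r (n : H)) = 1 := n.2
    have hπx : π (t * r (n : H) * t⁻¹) = 1 := (conjKer π r t n).2
    have Hc := (co.mem_cocycles₂_iff (f : G × G → A)).1 f.2.1
    have c1 := Hc t (r (n : H)) (r (n' : H)) 1
    have c2 := Hc (t * r (n : H) * t⁻¹) t (r (n' : H)) 1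
    have c3 := Hc (t * r (n : H) * t⁻¹) (t * r (n' : H) * t⁻¹) t 1
    rw [one_mul] at c1
    rw [hπx, mul_one] at c2 c3
    have e1 : t * r (n : H) * t⁻¹ * t = t * r (n : H) := by group
    have e2 : t * r (n' : H) * t⁻¹ * t = t * r (n' : H) := by group
    have e3 : t * r (n : H) * t⁻¹ * (t * r (n' : H) * t⁻¹) =
        t * (r (n : H) * r (n' : H)) * t⁻¹ := by group
    rw [e1] at c2
    rw [e2, e3] at c3
    -- the restriction of `f` is `d b`
    have hb' := congrFun hbf ((n : H), (n' : H))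
    rw [LevelStr.pull₂_apply, d₁₂_hom_apply] at hb'
    have hb'' := congrArg (fun a => co.c a (π t)) hb'
    simp only [map_add, map_sub, Pi.add_apply, Pi.sub_apply] at hb''
    have hρ : co.c ((Rep.res r A).ρ (n : H) (b (n' : H))) (π t) = co.c (b (n' : H)) (π t) := by
      have : (Rep.res r A).ρ (n : H) (b (n' : H)) = A.ρ (r (n : H)) (b (n' : H)) := rfl
      rw [this, co.c_ρ, hn, mul_one]
    rw [hρ] at hb''
    rw [d₁₂_triv, tpull₂_apply, CoindCoord.sh₂_apply, coe_conjKer, coe_conjKer]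
    simp only [conjCorr, Subgroup.coe_mul, map_mul]
    linear_combination hb'' - c1 + c2 - c3

end M2

/-! ### (M1): vanishing of the restriction in degree 1 from the conjugated restrictions -/

section M1

variable {𝒰 : LevelStr G} {𝒱 : LevelStr H} {r : H →* G} {π : G →* Γ} {A : Rep k G}

/-- degree-`1` conjugation identity in coordinates: for a `1`-cocycle `f` and `n ∈ (π ∘ r).ker`,
`c (f (r n)) (π t) = c (f (t * r n * t⁻¹)) 1`. -/
lemma c_cocycle₁_conj (co : CoindCoord π A) {f : G → A} (hf : f ∈ cocycles₁ A) (t a : G)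
    (ha : π a = 1) : co.c (f a) (π t) = co.c (f (t * a * t⁻¹)) 1 := by
  have Hc := (co.mem_cocycles₁_iff f).1 hf
  have c1 := Hc t a 1
  have c2 := Hc (t * a * t⁻¹) t 1
  have hx : π (t * a * t⁻¹) = 1 := by
    rw [map_mul, map_mul, map_inv, ha, mul_one, mul_inv_cancel]
  have e : t * a * t⁻¹ * t = t * a := by group
  rw [one_mul] at c1
  rw [hx, mul_one, e] at c2
  linear_combination c2 - c1

/-- **(M1)** If the pull-backs of the Shapiro image of `x : H¹(𝒰; A)` along the conjugated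
embeddings `conjKer π r (t i)` vanish, for a family `t i` covering the `π (r H)`-orbits of `Γ`,
then `x` restricts to `0` in `H¹(𝒱; res A)`. -/
theorem res₁_eq_zero_of_trivRes₁ (hr : LevelStr.IsContinuous 𝒱 𝒰 r)
    (hker : ∃ V ∈ 𝒰.levels, V ≤ π.ker) (co : CoindCoord π A) {ι : Type*} (t : ι → G)
    (hcov : ∀ δ : Γ, ∃ i, ∃ h : H, π (t i) * π (r h) = δ) (x : 𝒰.H1 A)
    (hx : ∀ i, trivRes₁ (k := k) (conjKer_isContinuous hr hker (t i)) (shH1 𝒰 hker co x) = 0) :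
    hr.res₁ A x = 0 := by
  classical
  obtain ⟨f, rfl⟩ := Submodule.mkQ_surjective _ x
  have hf : (f : G → A) ∈ cocycles₁ A := f.2.1
  have Hc := (co.mem_cocycles₁_iff (f : G → A)).1 hf
  -- vanishing of the coordinates at `π (t i)` on the kernel
  have hvan : ∀ i (n : H), π (r n) = 1 → co.c ((f : G → A) (r n)) (π (t i)) = 0 := by
    intro i n hn
    have h1 : (kerLevels 𝒱 (hker_comp hr hker)).H1π _
        (tresZ₁ (conjKer_isContinuous hr hker (t i)) (shZ₁ 𝒰 hker co f)) = 0 := hx i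
    rw [LevelStr.H1π_eq_zero_iff, coe_tresZ₁, coe_shZ₁] at h1
    have h2 := congrFun (eq_zero_of_mem_coboundaries₁_triv h1) ⟨n, hn⟩
    rw [tpull₁_apply, CoindCoord.sh₁_apply, coe_conjKer] at h2
    rw [c_cocycle₁_conj co hf (t i) (r n) hn]
    exact h2
  -- invariance under left multiplication by the kernel
  have hinv : ∀ i (m h : H), π (r m) = 1 →
      co.c ((f : G → A) (r (m * h))) (π (t i)) = co.c ((f : G → A) (r h)) (π (t i)) := by
    intro i m h hm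
    have := Hc (r m) (r h) (π (t i))
    rw [map_mul, this, hm, mul_one, hvan i m hm, add_zero]
  -- orbit representatives
  let P : Subgroup Γ := (π.comp r).range
  have hrep : ∀ q : Γ ⧸ P, ∃ i, ∃ h : H, π (t i) * π (r h) = (Quotient.out q : Γ) :=
    fun q => hcov _
  choose i₀ h₀ hi₀ using hrep
  let ρ : Γ → Γ := fun δ => π (t (i₀ (QuotientGroup.mk δ)))
  have hρ_orbit : ∀ δ : Γ, ∃ h : H, ρ δ * π (r h) = δ := by
    intro δ
    have h1 : ((Quotient.out (QuotientGroup.mk δ : Γ ⧸ P) : Γ) : Γ ⧸ P) = (δ : Γ ⧸ P) :=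
      QuotientGroup.out_eq' _
    have h2 : (Quotient.out (QuotientGroup.mk δ : Γ ⧸ P) : Γ)⁻¹ * δ ∈ P := QuotientGroup.eq.1 h1
    obtain ⟨h1', hh1'⟩ := h2
    refine ⟨h₀ (QuotientGroup.mk δ) * h1', ?_⟩
    have e : π (r h1') = (Quotient.out (QuotientGroup.mk δ : Γ ⧸ P) : Γ)⁻¹ * δ := hh1'
    rw [map_mul, map_mul, ← mul_assoc]
    show π (t (i₀ (QuotientGroup.mk δ))) * π (r (h₀ (QuotientGroup.mk δ))) * π (r h1') = δ
    rw [hi₀, e, mul_inv_cancel_left]
  have hρ_mul : ∀ (δ : Γ) (h : H), ρ (δ * π (r h)) = ρ δ := by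
    intro δ h
    have : (QuotientGroup.mk (δ * π (r h)) : Γ ⧸ P) = QuotientGroup.mk δ := by
      rw [QuotientGroup.eq]
      refine ⟨h⁻¹, ?_⟩
      simp [mul_inv_rev]
    simp only [ρ, this]
  choose hδ hhδ using hρ_orbit
  -- the primitive, in coordinates
  let φ : Γ → k := fun δ => co.c ((f : G → A) (r (hδ δ))) (ρ δ)
  have hφ : ∀ (δ : Γ) (h : H), ρ δ * π (r h) = δ →
      φ δ = co.c ((f : G → A) (r h)) (ρ δ) := by
    intro δ h hh
    have hm : π (r (h * (hδ δ)⁻¹)) = 1 := by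
      have := (hhδ δ).trans hh.symm
      have h3 : π (r (hδ δ)) = π (r h) := mul_left_cancel this
      rw [map_mul, map_mul, map_inv, map_inv, h3, mul_inv_cancel]
    have := hinv (i₀ (QuotientGroup.mk δ)) (h * (hδ δ)⁻¹) (hδ δ) hm
    rw [inv_mul_cancel_right] at this
    exact this.symm
  -- conclude
  change 𝒱.H1π _ (hr.resZ₁ A f) = 0
  rw [LevelStr.H1π_eq_zero_iff, LevelStr.IsContinuous.coe_resZ₁]
  refine ⟨co.c.symm φ, ?_⟩
  funext h
  apply co.ext_c
  intro δ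
  rw [d₀₁_hom_apply, LevelStr.pull₁_apply, map_sub, Pi.sub_apply]
  have hρA : (Rep.res r A).ρ h (co.c.symm φ) = A.ρ (r h) (co.c.symm φ) := rfl
  rw [hρA, co.c_ρ, co.c_symm_apply, co.c_symm_apply]
  -- `φ (δ π(r h)) - φ δ = c (f (r h)) δ`
  have e1 : ρ (δ * π (r h)) * π (r (hδ δ * h)) = δ * π (r h) := by
    rw [hρ_mul, map_mul, map_mul, ← mul_assoc, hhδ]
  rw [hφ (δ * π (r h)) (hδ δ * h) e1, hρ_mul]
  have := Hc (r (hδ δ)) (r h) (ρ δ)
  rw [map_mul, this, hhδ]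
  show co.c ((f : G → A) (r h)) δ + co.c ((f : G → A) (r (hδ δ))) (ρ δ) - φ δ = _
  simp only [φ]
  ring

end M1

end Fermat.Agent.S55.ShaTransport84
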