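/-
S55 / 47f-SHA-TRANSPORT (helper84), file 2: transport of Tate–Shafarevich groups through Shapiro's
lemma, for a family of local groups.

Setting: `𝒰 : LevelStr G`, `π : G →* Γ` with `hker : ∃ V ∈ 𝒰.levels, V ≤ π.ker`, `A : Rep k G` with
coordinates `co : CoindCoord π A`; a family of local groups `r v : Hl v →* G` (`v : I`),
level-continuous (`hr v`), and for every `v` a family `t v i : G` (`i : J v`) of conjugating
elements.  The *conjugate family* is indexed by `w = ⟨v, i⟩ : Σ v, J v`: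

  `conjGroup π r w = ↥(π.comp (r v)).ker`, `conjLevels hr hker w = kerLevels (𝒱 v) _`,
  `conjMap π r t w = conjKer π (r v) (t v i) : conjGroup π r w →* π.ker`   (`n ↦ t * r n * t⁻¹`).

* `GSha₁ hr A`, `GSha₂ hr A` : `⨅ v, ker ((hr v).resₙ A)` in `𝒰.Hn A`  (for `G = G_ℚ`, the local
  groups at `q ∈ S`: `Profin15.ShaF₁/ShaF₂`);
* `USha₁ hr hker t`, `USha₂ hr hker t` : `⨅ w, ker ((conjMap_isContinuous hr hker t w).resₙ (triv k π.ker))`
  in `(kerLevels 𝒰 hker).Hn (triv k π.ker)`  (definitionally `CountWire96.sha1/sha2` of the conjugate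
  family with trivial coefficients);
* `shH2_mem_USha₂`  : Shapiro maps `GSha₂` into `USha₂`;
* `mem_GSha₁_of_shH1_mem` : the preimage of `USha₁` under Shapiro lies in `GSha₁`, provided the
  `t v i` cover the `π (r v (Hl v))`-orbits of `Γ` (or the local `H¹` at `v` vanishes);
* over a field, with a section `σ : Sect π`: `finrank_GSha₂_le`, `finrank_USha₁_le`, and the
  transport of the count `sha_count_of_level`.
-/
import Fermat.Agent.S55.ShaTransport84.Mackey

set_option autoImplicit false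

universe u

open CategoryTheory groupCohomology Module

namespace Fermat.Agent.S55.ShaTransport84

open Fermat.Agent.S55.Profin15 Fermat.Agent.S55.ShapiroLevel32

/-! ### `trivRes` is the restriction map of `Profin15` at trivial coefficients -/

section Bridge

variable {k : Type u} [CommRing k] {H₁ H₂ : Type u} [Group H₁] [Group H₂]
  {𝒰' : LevelStr H₁} {𝒱' : LevelStr H₂} {φ : H₂ →* H₁} (hφ : LevelStr.IsContinuous 𝒱' 𝒰' φ)

/-- the restriction of the trivial module is the trivial module (definitionally) -/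
lemma res_triv : Rep.res φ (triv k H₁) = triv k H₂ := rfl

lemma trivRes₁_eq_res₁ : trivRes₁ (k := k) hφ = hφ.res₁ (triv k H₁) := rfl

lemma trivRes₂_eq_res₂ : trivRes₂ (k := k) hφ = hφ.res₂ (triv k H₁) := rfl

end Bridge

/-! ### The conjugate family and the two Tate–Shafarevich groups -/

section Family

variable {k G Γ : Type u} [CommRing k] [Group G] [Group Γ]
variable {𝒰 : LevelStr G} {π : G →* Γ}
variable {I : Type*} {Hl : I → Type u} [∀ v, Group (Hl v)] {𝒱 : ∀ v, LevelStr (Hl v)}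
  {r : ∀ v, Hl v →* G} (hr : ∀ v, LevelStr.IsContinuous (𝒱 v) 𝒰 (r v))
  (hker : ∃ V ∈ 𝒰.levels, V ≤ π.ker)
  {J : I → Type*} (t : ∀ v, J v → G)

/-- `⨅ v, ker (res_v)` in degree `1` -/
def GSha₁ (A : Rep k G) : Submodule k (𝒰.H1 A) := ⨅ v, LinearMap.ker ((hr v).res₁ A)

/-- `⨅ v, ker (res_v)` in degree `2` -/
def GSha₂ (A : Rep k G) : Submodule k (𝒰.H2 A) := ⨅ v, LinearMap.ker ((hr v).res₂ A)

lemma mem_GSha₁_iff (A : Rep k G) (x : 𝒰.H1 A) : x ∈ GSha₁ hr A ↔ ∀ v, (hr v).res₁ A x = 0 := by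
  simp only [GSha₁, Submodule.mem_iInf, LinearMap.mem_ker]

lemma mem_GSha₂_iff (A : Rep k G) (x : 𝒰.H2 A) : x ∈ GSha₂ hr A ↔ ∀ v, (hr v).res₂ A x = 0 := by
  simp only [GSha₂, Submodule.mem_iInf, LinearMap.mem_ker]

/-- the local group of the conjugate family at `w = ⟨v, i⟩` -/
abbrev conjGroup (π : G →* Γ) (r : ∀ v, Hl v →* G) (w : Σ v, J v) : Type u :=
  ↥((π.comp (r w.1)).ker)

/-- the level structure of the conjugate family at `w = ⟨v, i⟩` -/
abbrev conjLevels (w : Σ v, J v) : LevelStr (conjGroup (J := J) π r w) :=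
  kerLevels (𝒱 w.1) (hker_comp (hr w.1) hker)

/-- the map of the conjugate family at `w = ⟨v, i⟩` : `n ↦ t v i * r v n * (t v i)⁻¹` -/
abbrev conjMap (π : G →* Γ) (r : ∀ v, Hl v →* G) (t : ∀ v, J v → G) (w : Σ v, J v) :
    conjGroup (J := J) π r w →* π.ker :=
  conjKer π (r w.1) (t w.1 w.2)

lemma conjMap_isContinuous (w : Σ v, J v) :
    LevelStr.IsContinuous (conjLevels (J := J) hr hker w) (kerLevels 𝒰 hker) (conjMap π r t w) :=
  conjKer_isContinuous (hr w.1) hker (t w.1 w.2)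

/-- `⨅ w, ker (res_w)` for the conjugate family, trivial coefficients, degree `1` -/
def USha₁ : Submodule k ((kerLevels 𝒰 hker).H1 (triv k π.ker)) :=
  ⨅ w : Σ v, J v, LinearMap.ker ((conjMap_isContinuous hr hker t w).res₁ (triv k π.ker))

/-- `⨅ w, ker (res_w)` for the conjugate family, trivial coefficients, degree `2` -/
def USha₂ : Submodule k ((kerLevels 𝒰 hker).H2 (triv k π.ker)) :=
  ⨅ w : Σ v, J v, LinearMap.ker ((conjMap_isContinuous hr hker t w).res₂ (triv k π.ker))

lemma mem_USha₁_iff (y : (kerLevels 𝒰 hker).H1 (triv k π.ker)) :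
    y ∈ USha₁ (k := k) hr hker t ↔
      ∀ v (i : J v), trivRes₁ (k := k) (conjKer_isContinuous (hr v) hker (t v i)) y = 0 := by
  simp only [USha₁, Submodule.mem_iInf, LinearMap.mem_ker, Sigma.forall]
  rfl

lemma mem_USha₂_iff (y : (kerLevels 𝒰 hker).H2 (triv k π.ker)) :
    y ∈ USha₂ (k := k) hr hker t ↔
      ∀ v (i : J v), trivRes₂ (k := k) (conjKer_isContinuous (hr v) hker (t v i)) y = 0 := by
  simp only [USha₂, Submodule.mem_iInf, LinearMap.mem_ker, Sigma.forall]
  rfl

variable {A : Rep k G} (co : CoindCoord π A)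

/-- **(T2)** Shapiro maps `GSha₂` into `USha₂`. -/
theorem shH2_mem_USha₂ {x : 𝒰.H2 A} (hx : x ∈ GSha₂ hr A) :
    shH2 𝒰 hker co x ∈ USha₂ (k := k) hr hker t := by
  rw [mem_USha₂_iff]
  intro v i
  exact trivRes₂_conjKer_shH2_eq_zero (hr v) hker co x ((mem_GSha₂_iff hr A x).1 hx v) (t v i)

/-- the covering hypothesis at `v`: the `t v i` meet every `π (r v (Hl v))`-orbit of `Γ`, or the
local `H¹` at `v` is irrelevant. -/
def Covers (π : G →* Γ) (r : ∀ v, Hl v →* G) (t : ∀ v, J v → G) (v : I) : Prop :=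
  ∀ δ : Γ, ∃ i : J v, ∃ h : Hl v, π (t v i) * π (r v h) = δ

/-- **(T1)** a class whose Shapiro image lies in `USha₁` lies in `GSha₁`. -/
theorem mem_GSha₁_of_shH1_mem
    (hcov : ∀ v, Covers π r t v ∨ ∀ y : 𝒰.H1 A, (hr v).res₁ A y = 0)
    {x : 𝒰.H1 A} (hx : shH1 𝒰 hker co x ∈ USha₁ (k := k) hr hker t) : x ∈ GSha₁ hr A := by
  rw [mem_USha₁_iff] at hx
  rw [mem_GSha₁_iff]
  intro v
  rcases hcov v with h | h
  · exact res₁_eq_zero_of_trivRes₁ (hr v) hker co (t v) h x (hx v)
  · exact h x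

end Family

/-! ### Dimension counts over a field -/

section Count

variable {k G Γ : Type u} [Field k] [Group G] [Group Γ]
variable {𝒰 : LevelStr G} {π : G →* Γ}
variable {I : Type*} {Hl : I → Type u} [∀ v, Group (Hl v)] {𝒱 : ∀ v, LevelStr (Hl v)}
  {r : ∀ v, Hl v →* G} (hr : ∀ v, LevelStr.IsContinuous (𝒱 v) 𝒰 (r v))
  (hker : ∃ V ∈ 𝒰.levels, V ≤ π.ker)
  {J : I → Type*} (t : ∀ v, J v → G)
  {A : Rep k G} (co : CoindCoord π A) (σ : Sect π)

/-- the restriction of the Shapiro isomorphism `GSha₂ → USha₂` -/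
def shaMap₂ : ↥(GSha₂ hr A) →ₗ[k] ↥(USha₂ (k := k) hr hker t) :=
  ((shH2 𝒰 hker co).comp (GSha₂ hr A).subtype).codRestrict _
    (fun x => shH2_mem_USha₂ hr hker t co x.2)

include σ in
lemma shaMap₂_injective : Function.Injective (shaMap₂ hr hker t co) := by
  intro x y hxy
  have h := congrArg Subtype.val hxy
  apply Subtype.ext
  exact (shapiroH2 𝒰 hker co σ).injective h

include co σ in
/-- `GSha₂` is finite-dimensional as soon as `USha₂` is, and `dim GSha₂ ≤ dim USha₂`. -/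
theorem finrank_GSha₂_le [Module.Finite k ↥(USha₂ (k := k) hr hker t)] :
    Module.Finite k ↥(GSha₂ hr A) ∧
      finrank k ↥(GSha₂ hr A) ≤ finrank k ↥(USha₂ (k := k) hr hker t) :=
  ⟨Module.Finite.of_injective _ (shaMap₂_injective hr hker t co σ),
    LinearMap.finrank_le_finrank_of_injective (shaMap₂_injective hr hker t co σ)⟩

/-- the inverse Shapiro isomorphism restricted to `USha₁ → GSha₁` -/
def shaMap₁ (hcov : ∀ v, Covers π r t v ∨ ∀ y : 𝒰.H1 A, (hr v).res₁ A y = 0) :
    ↥(USha₁ (k := k) hr hker t) →ₗ[k] ↥(GSha₁ hr A) :=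
  (((shapiroH1 𝒰 hker co σ).symm : _ →ₗ[k] 𝒰.H1 A).comp
    (USha₁ (k := k) hr hker t).subtype).codRestrict _ (fun y => by
      apply mem_GSha₁_of_shH1_mem hr hker t co hcov
      have : shH1 𝒰 hker co ((shapiroH1 𝒰 hker co σ).symm (y : _)) = (y : _) :=
        (shapiroH1 𝒰 hker co σ).apply_symm_apply _
      simp only [LinearMap.comp_apply, Submodule.subtype_apply, LinearEquiv.coe_coe]
      rw [this]
      exact y.2)

lemma shaMap₁_injective (hcov : ∀ v, Covers π r t v ∨ ∀ y : 𝒰.H1 A, (hr v).res₁ A y = 0) :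
    Function.Injective (shaMap₁ hr hker t co σ hcov) := by
  intro x y hxy
  have h := congrArg Subtype.val hxy
  apply Subtype.ext
  exact (shapiroH1 𝒰 hker co σ).symm.injective h

include co σ in
/-- `dim USha₁ ≤ dim GSha₁` when the level `H¹` with trivial coefficients is finite-dimensional. -/
theorem finrank_USha₁_le (hcov : ∀ v, Covers π r t v ∨ ∀ y : 𝒰.H1 A, (hr v).res₁ A y = 0)
    [Module.Finite k ((kerLevels 𝒰 hker).H1 (triv k π.ker))] :
    finrank k ↥(USha₁ (k := k) hr hker t) ≤ finrank k ↥(GSha₁ hr A) := by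
  have : Module.Finite k (𝒰.H1 A) := Module.Finite.equiv (shapiroH1 𝒰 hker co σ).symm
  exact LinearMap.finrank_le_finrank_of_injective (shaMap₁_injective hr hker t co σ hcov)

include co σ in
/-- **Transport of the count.**  If, at the level `π.ker` with trivial coefficients, `USha₂` is
finite-dimensional of dimension `≤ dim USha₁`, then `GSha₂` is finite-dimensional of dimension
`≤ dim GSha₁`. -/
theorem sha_count_of_level
    (hcov : ∀ v, Covers π r t v ∨ ∀ y : 𝒰.H1 A, (hr v).res₁ A y = 0)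
    [Module.Finite k ((kerLevels 𝒰 hker).H1 (triv k π.ker))]
    [Module.Finite k ↥(USha₂ (k := k) hr hker t)]
    (hcount : finrank k ↥(USha₂ (k := k) hr hker t) ≤ finrank k ↥(USha₁ (k := k) hr hker t)) :
    Module.Finite k ↥(GSha₂ hr A) ∧ finrank k ↥(GSha₂ hr A) ≤ finrank k ↥(GSha₁ hr A) := by
  obtain ⟨hfin, h2⟩ := finrank_GSha₂_le hr hker t co σ
  exact ⟨hfin, h2.trans (hcount.trans (finrank_USha₁_le hr hker t co σ hcov))⟩

end Count

end Fermat.Agent.S55.ShaTransport84
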