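/-
S55 / 47f-SHA-TRANSPORT (helper84), file 3: the instance `G = G_ℚ`, `𝒰 = globalLevels S`,
`π = QuotientGroup.mk' U` for a level `U`, `A = perm p U = 𝔽_p[G_ℚ/U]`, local groups
`primeLocalToGlobal q`, `q ∈ S`.

* `permCoord N` : coordinates presenting `k[G/N]` as the module coinduced from the trivial module
  of `N` (`c x δ = x.coeff δ⁻¹`);
* `canonT` / `covers_canonT` : a canonical minimal covering family, indexed by
  `Γ ⧸ (π ∘ r v).range` (= the places above `v` of the field cut out by `π.ker`);
* `hilbertCountL_level` : for `p` odd, the count `dim USha₂ ≤ dim USha₁` at the level `U` with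
  trivial coefficients gives the `U`-component of `Profin15.Plug.HilbertCountL p S`;
* `LevelCount`, `hilbertCountL_of_levelCount`, `hilbertCount_of_levelCount` : the packaged forms.
-/
import Fermat.Agent.S55.ShaTransport84.Transport
import Fermat.Agent.S55.Profin15.ContractB
import Fermat.Agent.S55.Profin15.ShaFinite

set_option autoImplicit false

universe u

open CategoryTheory groupCohomology Module ExtCitation

namespace Fermat.Agent.S55.ShaTransport84

open Fermat.Agent.S55.Profin15 Fermat.Agent.S55.ShapiroLevel32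
open Fermat.Agent.Lib.FrobeniusExists (Qb GQ)
open Fermat.Agent.S55.Contract34

/-! ### Coordinates on the permutation module `k[G/N]` -/

section PermCoord

variable {k G : Type u} [CommRing k] [Group G]

lemma ofMulAction_coeff_apply {X : Type u} [MulAction G X] (g : G) (x : MonoidAlgebra k X)
    (y : X) : ((Representation.ofMulAction k G X g) x).coeff y = x.coeff (g⁻¹ • y) := by
  rw [Representation.ofMulAction_def]
  simp only [LinearMap.comp_apply, LinearEquiv.coe_coe, MonoidAlgebra.coeffLinearEquiv_symm_apply,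
    MonoidAlgebra.coeffLinearEquiv_apply, Finsupp.lmapDomain_apply]
  conv_lhs => rw [← smul_inv_smul g y]
  exact Finsupp.mapDomain_apply (MulAction.injective g) _ _

variable (k) (N : Subgroup G) [N.Normal] [Finite (G ⧸ N)]

/-- `k[G/N]` is coinduced from the trivial module of `N`: `c x δ = x.coeff δ⁻¹`. -/
noncomputable def permCoord :
    CoindCoord (k := k) (QuotientGroup.mk' N) (Rep.ofMulAction k G (G ⧸ N)) where
  c := (MonoidAlgebra.coeffLinearEquiv k).trans
    ((Finsupp.linearEquivFunOnFinite k k (G ⧸ N)).trans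
      (LinearEquiv.funCongrLeft k k (Equiv.inv (G ⧸ N))))
  c_ρ g a δ := by
    show ((Representation.ofMulAction k G (G ⧸ N) g) a).coeff δ⁻¹ =
      a.coeff (δ * QuotientGroup.mk' N g)⁻¹
    rw [ofMulAction_coeff_apply]
    congr 1
    rw [mul_inv_rev]
    rfl

lemma permCoord_c_apply (a : Rep.ofMulAction k G (G ⧸ N)) (δ : G ⧸ N) :
    (permCoord k N).c a δ = MonoidAlgebra.coeff a δ⁻¹ := rfl

end PermCoord

/-! ### A canonical minimal covering family -/

section Canon

variable {G Γ : Type u} [Group G] [Group Γ] {I : Type*} {Hl : I → Type u} [∀ v, Group (Hl v)]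

/-- the canonical index set at `v`: cosets of the image of the local group in `Γ` -/
abbrev CanonJ (π : G →* Γ) (r : ∀ v, Hl v →* G) (v : I) : Type u := Γ ⧸ (π.comp (r v)).range

/-- lifts of coset representatives -/
noncomputable def canonT {π : G →* Γ} (hπ : Function.Surjective π) (r : ∀ v, Hl v →* G) (v : I)
    (j : CanonJ π r v) : G :=
  Function.surjInv hπ (Quotient.out j)

lemma covers_canonT {π : G →* Γ} (hπ : Function.Surjective π) (r : ∀ v, Hl v →* G) (v : I) :
    Covers π r (canonT hπ r) v := by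
  intro δ
  have h1 : ((Quotient.out (QuotientGroup.mk δ : Γ ⧸ (π.comp (r v)).range) : Γ) :
      Γ ⧸ (π.comp (r v)).range) = (δ : Γ ⧸ (π.comp (r v)).range) := QuotientGroup.out_eq' _
  obtain ⟨h, hh⟩ := QuotientGroup.eq.1 h1
  refine ⟨QuotientGroup.mk δ, h, ?_⟩
  have e : π (r v h) = (Quotient.out (QuotientGroup.mk δ : Γ ⧸ (π.comp (r v)).range) : Γ)⁻¹ * δ :=
    hh
  rw [canonT, Function.surjInv_eq hπ, e, mul_inv_cancel_left]

end Canon

/-! ### The instance over `ℚ` -/

section Global

variable (p : ℕ) [Fact p.Prime] (S : Finset Nat.Primes)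

/-- the localisation maps at the finite places of `S` -/
noncomputable abbrev rS : ∀ q : ↥S, primeLocalGaloisGroup q.1 →* GQ :=
  fun q => primeLocalToGlobal q.1

lemma hrS (q : ↥S) :
    LevelStr.IsContinuous (primeLevels q.1) (globalLevels S) (rS S q) :=
  isContinuous_pullLevels S (primeLocalToGlobal q.1)

lemma GSha₁_eq_ShaF₁ {k : Type} [CommRing k] (M : Rep k GQ) : GSha₁ (hrS S) M = ShaF₁ S M := rfl

lemma GSha₂_eq_ShaF₂ {k : Type} [CommRing k] (M : Rep k GQ) : GSha₂ (hrS S) M = ShaF₂ S M := rfl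

variable {S}

/-- a level `U` contains a level of the kernel of `G_ℚ → G_ℚ/U` -/
lemma hker_mk' {U : Subgroup GQ} [U.Normal] (hU : U ∈ (globalLevels S).levels) :
    ∃ V ∈ (globalLevels S).levels, V ≤ (QuotientGroup.mk' U).ker :=
  ⟨U, hU, (QuotientGroup.ker_mk' U).ge⟩

variable {p}

/-- **The `U`-component of `HilbertCountL`** from the count at the level `U` with trivial
coefficients, for any covering family `t q i` (`q ∈ S`). -/
theorem hilbertCountL_level (hp2 : p ≠ 2) {U : Subgroup GQ} [U.Normal]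
    (hU : U ∈ (globalLevels S).levels) {J : ↥S → Type*} (t : ∀ q : ↥S, J q → GQ)
    (hcov : ∀ q : ↥S, Covers (QuotientGroup.mk' U) (rS S) t q)
    [Module.Finite (ZMod p) ((kerLevels (globalLevels S) (hker_mk' hU)).H1
      (triv (ZMod p) (QuotientGroup.mk' U).ker))]
    [Module.Finite (ZMod p) ↥(USha₂ (k := ZMod p) (hrS S) (hker_mk' hU) t)]
    (hcount : finrank (ZMod p) ↥(USha₂ (k := ZMod p) (hrS S) (hker_mk' hU) t) ≤
      finrank (ZMod p) ↥(USha₁ (k := ZMod p) (hrS S) (hker_mk' hU) t)) :
    Module.Finite (ZMod p) ↥(Sha₂ S (perm p U)) ∧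
      finrank (ZMod p) ↥(Sha₂ S (perm p U)) ≤ finrank (ZMod p) ↥(Sha₁ S (perm p U)) := by
  classical
  obtain ⟨σ⟩ := exists_sect (QuotientGroup.mk'_surjective U)
  have hfi : U.FiniteIndex := (globalLevels S).finiteIndex U hU
  have hfin : Finite (GQ ⧸ U) := Subgroup.finite_quotient_of_finiteIndex
  have h := sha_count_of_level (A := perm p U) (hrS S) (hker_mk' hU) t (permCoord (ZMod p) U) σ
    (fun q => Or.inl (hcov q)) hcount
  rw [Sha₂_eq_ShaF₂ S hp2, Sha₁_eq_ShaF₁ S hp2]
  exact h

/-- the count at the level `U` with trivial coefficients (for some covering family) -/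
def LevelCount (p : ℕ) [Fact p.Prime] (S : Finset Nat.Primes) (U : Subgroup GQ) [U.Normal]
    (hU : U ∈ (globalLevels S).levels) : Prop :=
  ∃ (J : ↥S → Type) (t : ∀ q : ↥S, J q → GQ),
    (∀ q : ↥S, Covers (QuotientGroup.mk' U) (rS S) t q) ∧
    Module.Finite (ZMod p) ((kerLevels (globalLevels S) (hker_mk' hU)).H1
      (triv (ZMod p) (QuotientGroup.mk' U).ker)) ∧
    Module.Finite (ZMod p) ↥(USha₂ (k := ZMod p) (hrS S) (hker_mk' hU) t) ∧
    finrank (ZMod p) ↥(USha₂ (k := ZMod p) (hrS S) (hker_mk' hU) t) ≤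
      finrank (ZMod p) ↥(USha₁ (k := ZMod p) (hrS S) (hker_mk' hU) t)

/-- **(P7') in level cohomology from the counts at all levels.** -/
theorem hilbertCountL_of_levelCount (hp2 : p ≠ 2)
    (h : ∀ (U : Subgroup GQ) (hU : U ∈ (globalLevels S).levels), (∀ s ∈ U, (mu p).ρ s = 1) →
      @LevelCount p _ S U ((globalLevels S).normal U hU) hU) :
    Profin15.Plug.HilbertCountL p S := by
  intro U hU hmu
  have : U.Normal := (globalLevels S).normal U hU
  obtain ⟨J, t, hcov, hf1, hf2, hcount⟩ := h U hU hmu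
  exact hilbertCountL_level hp2 hU t hcov hcount

/-- **(P7') = `Contract34.HilbertCount` from the counts at all levels.** -/
theorem hilbertCount_of_levelCount (hp2 : p ≠ 2)
    (h : ∀ (U : Subgroup GQ) (hU : U ∈ (globalLevels S).levels), (∀ s ∈ U, (mu p).ρ s = 1) →
      @LevelCount p _ S U ((globalLevels S).normal U hU) hU) :
    HilbertCount p S :=
  (Profin15.Plug.hilbertCount_iff p S).2 (hilbertCountL_of_levelCount hp2 h)

end Global

end Fermat.Agent.S55.ShaTransport84
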