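/-
S55 / 47f-SHA-TRANSPORT (helper84), file 4: the interface with `CountWire96.Core` (helper96).

`USha₁/USha₂` are definitionally `CountWire96.sha1/sha2` of the conjugate family
(`ι = Σ v, J v`, `H w = conjGroup π r w`, `𝒱 w = conjLevels hr hker w`, `f w = conjMap π r t w`,
`hf w = conjMap_isContinuous hr hker t w`) with coefficients `A = M = triv k π.ker`, so that the
conclusion of `CountWire96.finrank_sha2_le_finrank_sha1` is literally the hypothesis `hcount` of
`sha_count_of_level` / `hilbertCountL_level`.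
-/
import Fermat.Agent.S55.ShaTransport84.Global
import Fermat.Agent.S55.CountWire96.Core

set_option autoImplicit false

universe u

open CategoryTheory groupCohomology Module

namespace Fermat.Agent.S55.ShaTransport84

open Fermat.Agent.S55.Profin15 Fermat.Agent.S55.ShapiroLevel32
open Fermat.Agent.Lib.FrobeniusExists (Qb GQ)
open Fermat.Agent.S55.Contract34

section

variable {k G Γ : Type u} [Field k] [Group G] [Group Γ]
variable {𝒰 : LevelStr G} {π : G →* Γ}
variable {I : Type*} {Hl : I → Type u} [∀ v, Group (Hl v)] {𝒱 : ∀ v, LevelStr (Hl v)}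
  {r : ∀ v, Hl v →* G} (hr : ∀ v, LevelStr.IsContinuous (𝒱 v) 𝒰 (r v))
  (hker : ∃ V ∈ 𝒰.levels, V ≤ π.ker)
  {J : I → Type*} (t : ∀ v, J v → G)

lemma USha₁_eq_sha1 : USha₁ (k := k) hr hker t =
    CountWire96.sha1 (conjMap_isContinuous hr hker t) (triv k π.ker) := rfl

lemma USha₂_eq_sha2 : USha₂ (k := k) hr hker t =
    CountWire96.sha2 (conjMap_isContinuous hr hker t) (triv k π.ker) := rfl

lemma GSha₁_eq_sha1 (A : Rep k G) : GSha₁ hr A = CountWire96.sha1 hr A := rfl

lemma GSha₂_eq_sha2 (A : Rep k G) : GSha₂ hr A = CountWire96.sha2 hr A := rfl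

end

section Global

variable {p : ℕ} [Fact p.Prime] {S : Finset Nat.Primes}

/-- `hilbertCountL_level` with the count stated in `CountWire96` vocabulary. -/
theorem hilbertCountL_level_of_countWire (hp2 : p ≠ 2) {U : Subgroup GQ} [U.Normal]
    (hU : U ∈ (globalLevels S).levels) {J : ↥S → Type*} (t : ∀ q : ↥S, J q → GQ)
    (hcov : ∀ q : ↥S, Covers (QuotientGroup.mk' U) (rS S) t q)
    [Module.Finite (ZMod p) ((kerLevels (globalLevels S) (hker_mk' hU)).H1
      (triv (ZMod p) (QuotientGroup.mk' U).ker))]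
    (hfin : Module.Finite (ZMod p) ↥(CountWire96.sha2
      (conjMap_isContinuous (hrS S) (hker_mk' hU) t) (triv (ZMod p) (QuotientGroup.mk' U).ker)))
    (hcount : finrank (ZMod p) ↥(CountWire96.sha2 (conjMap_isContinuous (hrS S) (hker_mk' hU) t)
        (triv (ZMod p) (QuotientGroup.mk' U).ker)) ≤
      finrank (ZMod p) ↥(CountWire96.sha1 (conjMap_isContinuous (hrS S) (hker_mk' hU) t)
        (triv (ZMod p) (QuotientGroup.mk' U).ker))) :
    Module.Finite (ZMod p) ↥(Sha₂ S (perm p U)) ∧
      finrank (ZMod p) ↥(Sha₂ S (perm p U)) ≤ finrank (ZMod p) ↥(Sha₁ S (perm p U)) := by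
  have : Module.Finite (ZMod p) ↥(USha₂ (k := ZMod p) (hrS S) (hker_mk' hU) t) := hfin
  exact hilbertCountL_level hp2 hU t hcov hcount

end Global

end Fermat.Agent.S55.ShaTransport84
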