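/-
S55 / 47f-SHA-TRANSPORT (helper84), file 5: `rfl`-bridges between the twin definitions of
`ShaTransport84.Mackey` and `ShapiroLevel32.Mackey` (helper32), which landed simultaneously:
`conjKer`, `trivRes₁`, `trivRes₂` agree definitionally, and all of them are `Profin15`'s
`LevelStr.IsContinuous.res₁/res₂` at the trivial module.  Consequently (M2) and (M1) are available
in helper32's vocabulary, and `mackey₁/mackey₂` of helper32 apply to `USha₁/USha₂`.
-/
import Fermat.Agent.S55.ShaTransport84.Transport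
import Fermat.Agent.S55.ShapiroLevel32.Mackey

set_option autoImplicit false

universe u

open CategoryTheory groupCohomology

namespace Fermat.Agent.S55.ShaTransport84

open Fermat.Agent.S55.Profin15

section

variable {k G Γ H : Type u} [CommRing k] [Group G] [Group Γ] [Group H]

lemma conjKer_eq32 (π : G →* Γ) (r : H →* G) (t : G) :
    Fermat.Agent.S55.ShaTransport84.conjKer π r t = Fermat.Agent.S55.ShapiroLevel32.conjKer π r t :=
  rfl

variable {H₁ H₂ : Type u} [Group H₁] [Group H₂]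
  {𝒰' : LevelStr H₁} {𝒱' : LevelStr H₂} {φ : H₂ →* H₁} (hφ : LevelStr.IsContinuous 𝒱' 𝒰' φ)

lemma trivRes₁_eq32 : Fermat.Agent.S55.ShaTransport84.trivRes₁ (k := k) hφ =
    Fermat.Agent.S55.ShapiroLevel32.trivRes₁ k hφ := rfl

lemma trivRes₂_eq32 : Fermat.Agent.S55.ShaTransport84.trivRes₂ (k := k) hφ =
    Fermat.Agent.S55.ShapiroLevel32.trivRes₂ k hφ := rfl

lemma trivRes₁32_eq_res₁ : Fermat.Agent.S55.ShapiroLevel32.trivRes₁ k hφ =
    hφ.res₁ (Fermat.Agent.S55.ShapiroLevel32.triv k H₁) := rfl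

lemma trivRes₂32_eq_res₂ : Fermat.Agent.S55.ShapiroLevel32.trivRes₂ k hφ =
    hφ.res₂ (Fermat.Agent.S55.ShapiroLevel32.triv k H₁) := rfl

end

section

open Fermat.Agent.S55.ShapiroLevel32

variable {k G Γ : Type u} [CommRing k] [Group G] [Group Γ]
variable {𝒰 : LevelStr G} {π : G →* Γ}
variable {I : Type*} {Hl : I → Type u} [∀ v, Group (Hl v)] {𝒱 : ∀ v, LevelStr (Hl v)}
  {r : ∀ v, Hl v →* G} (hr : ∀ v, LevelStr.IsContinuous (𝒱 v) 𝒰 (r v))
  (hker : ∃ V ∈ 𝒰.levels, V ≤ π.ker)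
  {J : I → Type*} (t : ∀ v, J v → G)

/-- membership in `USha₂` in helper32's vocabulary -/
lemma mem_USha₂_iff32 (y : (kerLevels 𝒰 hker).H2 (triv k π.ker)) :
    y ∈ USha₂ (k := k) hr hker t ↔ ∀ v (i : J v),
      Fermat.Agent.S55.ShapiroLevel32.trivRes₂ k
        (isContinuous_conjKer (hr v) hker (hker_comp (hr v) hker) (t v i)) y = 0 :=
  mem_USha₂_iff hr hker t y

/-- membership in `USha₁` in helper32's vocabulary -/
lemma mem_USha₁_iff32 (y : (kerLevels 𝒰 hker).H1 (triv k π.ker)) :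
    y ∈ USha₁ (k := k) hr hker t ↔ ∀ v (i : J v),
      Fermat.Agent.S55.ShapiroLevel32.trivRes₁ k
        (isContinuous_conjKer (hr v) hker (hker_comp (hr v) hker) (t v i)) y = 0 :=
  mem_USha₁_iff hr hker t y

end

end Fermat.Agent.S55.ShaTransport84
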